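import Fermat.Agent.DR.Conc.XiAbs
import Fermat.Agent.DR.Abs.Nodal.FrobBasic

/-!
# S41 / CC (change of coordinate) : abstract lemmas

The nodal structures of DR are relative to a coordinate `x` (`IsReg T x`, `IsSection T x`).  The degeneracy map `b'` does not
respect the coordinates.  The remedy is a MULTIPLIER `v = g / d₁ ^ b`.

* `map_mem_regOff`       : `w` regular off the poles of `x` ⟹ `φ w` regular off the poles of `φ x`;
* `ord_pow_mul_nonneg`   : `(Den t₁ Den t₂) ^ a w` is regular where `t₁, t₂` are, for `w ∈ L(a (ξ(t₁) ξ(t₂))_∞)`;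
* `exists_forall_div_pow_mem` : the poles at the poles of `d₁` are killed by a power of `d₁⁻¹`;
* `xiDen_oneAt_of_fix`   : `Den(u)` has the value `1` at the fixed points of `Φ²` (if `Φ^* u = u ^ q`).
-/

set_option autoImplicit false
set_option linter.unusedSectionVars false

noncomputable section

namespace Fermat.Agent.S41.CC

open AlgebraicCurve Fermat.Agent.Lib.RR Fermat.Agent.GAL.RED Fermat.Agent.DR.Conc Fermat.Agent.DR.Gal
  Fermat.Agent.DR.Nodal Fermat.Agent.Lib.PlaceEval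

section A

variable {K F : Type*} [Field K] [Field F] [Algebra K F] [IsFF K F] [IsAlgClosed K]

/-- **(A1)** -/
theorem map_mem_regOff {F' : Type*} [Field F'] [Algebra K F'] [IsFF K F'] (φ : F →ₐ[K] F')
    (hφ : φ.toRingHom.IsIntegral) {x w : F} (hw : w ∈ regOff K x) : φ w ∈ regOff K (φ x) := by
  rw [XiAbs_mem_regOff_iff] at hw ⊢
  intro P hP
  rw [Place.ord_restrictAlong φ hφ] at hP ⊢
  rcases Nat.eq_zero_or_pos (Place.ramificationIndexAlong φ P) with h0 | h0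
  · rw [h0]; simp
  · have h1 : (0 : ℤ) < (Place.ramificationIndexAlong φ P : ℤ) := by exact_mod_cast h0
    exact mul_nonneg h1.le (hw _ (nonneg_of_mul_nonneg_right hP h1))

omit [IsFF K F] [IsAlgClosed K] in
theorem ord_xiNum_nonneg {n : ℕ} {t : F} (Q : Place K F) (h : 0 ≤ Q.ord t) :
    0 ≤ Q.ord (xiNum n t) := by
  have ht : t ∈ Q.toValuationSubring := by
    rcases eq_or_ne t 0 with rfl | h0
    · exact zero_mem _
    · exact (Fermat.Agent.S24.mem_iff_ord_nonneg Q h0).2 h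
  have h1 : xiNum n t ∈ Q.toValuationSubring := by
    unfold xiNum yOf
    exact add_mem (pow_mem (sub_mem (pow_mem ht n) ht) 2) (one_mem _)
  rcases eq_or_ne (xiNum n t) 0 with h0 | h0
  · rw [h0, Q.ord_zero]
  · exact (Fermat.Agent.S24.mem_iff_ord_nonneg Q h0).1 h1

omit [IsFF K F] [IsAlgClosed K] in
theorem ord_xiDen_nonneg {n : ℕ} {t : F} (Q : Place K F) (h : 0 ≤ Q.ord t) :
    0 ≤ Q.ord (xiDen n t) := by
  have ht : t ∈ Q.toValuationSubring := by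
    rcases eq_or_ne t 0 with rfl | h0
    · exact zero_mem _
    · exact (Fermat.Agent.S24.mem_iff_ord_nonneg Q h0).2 h
  have h1 : xiDen n t ∈ Q.toValuationSubring := by
    unfold xiDen yOf
    exact add_mem (add_mem (pow_mem (sub_mem (pow_mem ht n) ht) 2) (sub_mem (pow_mem ht n) ht))
      (one_mem _)
  rcases eq_or_ne (xiDen n t) 0 with h0 | h0
  · rw [h0, Q.ord_zero]
  · exact (Fermat.Agent.S24.mem_iff_ord_nonneg Q h0).1 h1

/-- **(A2)** -/
theorem ord_pow_mul_nonneg {n : ℕ} {t₁ t₂ : F}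
    (hn₁ : xiNum n t₁ ≠ 0) (hd₁ : xiDen n t₁ ≠ 0) (hn₂ : xiNum n t₂ ≠ 0) (hd₂ : xiDen n t₂ ≠ 0)
    {a : ℕ} {w : F} (hw : w ∈ riemannRochSpace (a • poleDiv (K := K) (xiOf n t₁ * xiOf n t₂)))
    (Q : Place K F) (h₁ : 0 ≤ Q.ord t₁) (h₂ : 0 ≤ Q.ord t₂) :
    0 ≤ Q.ord ((xiDen n t₁ * xiDen n t₂) ^ a * w) := by
  rcases eq_or_ne w 0 with rfl | hw0
  · rw [mul_zero, Q.ord_zero]
  rw [mem_riemannRochSpace_iff] at hw
  have h := (hw Q).resolve_left hw0
  rw [Finsupp.smul_apply, poleDiv_apply, nsmul_eq_mul] at h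
  have hd : xiDen n t₁ * xiDen n t₂ ≠ 0 := mul_ne_zero hd₁ hd₂
  have e1 : Q.ord (xiOf n t₁ * xiOf n t₂) =
      Q.ord (xiNum n t₁) - Q.ord (xiDen n t₁) + (Q.ord (xiNum n t₂) - Q.ord (xiDen n t₂)) := by
    rw [xiOf, xiOf, Q.ord_mul (div_ne_zero hn₁ hd₁) (div_ne_zero hn₂ hd₂), ord_div Q hn₁ hd₁,
      ord_div Q hn₂ hd₂]
  rw [Q.ord_mul (pow_ne_zero a hd) hw0, ord_pow, Q.ord_mul hd₁ hd₂]
  have a1 := ord_xiNum_nonneg (n := n) Q h₁
  have a2 := ord_xiNum_nonneg (n := n) Q h₂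
  have a3 := ord_xiDen_nonneg (n := n) Q h₁
  have a4 := ord_xiDen_nonneg (n := n) Q h₂
  rw [e1] at h
  have h5 : max (-(Q.ord (xiNum n t₁) - Q.ord (xiDen n t₁) +
      (Q.ord (xiNum n t₂) - Q.ord (xiDen n t₂)))) 0 ≤ Q.ord (xiDen n t₁) + Q.ord (xiDen n t₂) := by
    apply max_le <;> omega
  have h6 : (a : ℤ) * max (-(Q.ord (xiNum n t₁) - Q.ord (xiDen n t₁) +
      (Q.ord (xiNum n t₂) - Q.ord (xiDen n t₂)))) 0 ≤
      (a : ℤ) * (Q.ord (xiDen n t₁) + Q.ord (xiDen n t₂)) :=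
    mul_le_mul_of_nonneg_left h5 (Nat.cast_nonneg a)
  linarith

/-- **(A3)** -/
theorem exists_forall_div_pow_mem {x d₁ g : F} (hd₁ : d₁ ≠ 0)
    (h1 : d₁⁻¹ ∈ regOff K x) (hg : ∀ P : Place K F, 0 ≤ P.ord d₁ → 0 ≤ P.ord g) :
    ∃ b₀ : ℕ, ∀ b : ℕ, b₀ ≤ b → g / d₁ ^ b ∈ regOff K x := by
  classical
  rw [XiAbs_mem_regOff_iff] at h1
  refine ⟨∑ P ∈ (divOf (K := K) d₁).support, (P.ord g).natAbs, fun b hb => ?_⟩
  rw [XiAbs_mem_regOff_iff]
  intro P hP
  rcases eq_or_ne g 0 with rfl | hg0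
  · rw [zero_div, P.ord_zero]
  have h2 := h1 P hP
  rw [P.ord_inv] at h2
  rw [ord_div P hg0 (pow_ne_zero b hd₁), ord_pow]
  rcases eq_or_lt_of_le (by omega : P.ord d₁ ≤ 0) with h0 | h0
  · rw [h0, mul_zero, sub_zero]
    exact hg P h0.ge
  · have hmem : P ∈ (divOf (K := K) d₁).support := by
      rw [Finsupp.mem_support_iff, divOf_apply]
      exact ne_of_lt h0
    have h3 : (P.ord g).natAbs ≤ ∑ P ∈ (divOf (K := K) d₁).support, (P.ord g).natAbs :=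
      Finset.single_le_sum (f := fun Q : Place K F => (Q.ord g).natAbs)
        (fun _ _ => Nat.zero_le _) hmem
    have h4 : ((P.ord g).natAbs : ℤ) ≤ (b : ℤ) := by exact_mod_cast h3.trans hb
    have h5 : -(P.ord g) ≤ ((P.ord g).natAbs : ℤ) := by
      rw [Int.natCast_natAbs]
      exact neg_le_abs _
    have h6 : (b : ℤ) * P.ord d₁ ≤ (b : ℤ) * (-1) :=
      mul_le_mul_of_nonneg_left (by omega) (Nat.cast_nonneg b)
    linarith

end A

section B

variable {k Fb : Type*} [Field k] [Field Fb] [Algebra k Fb] [IsFF k Fb] [IsAlgClosed k]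

/-- "`u` has the value `1` at `P`". -/
def OneAt (P : Place k Fb) (u : Fb) : Prop := P.ord u = 0 ∧ ev P u = 1

theorem OneAt.ne_zero {P : Place k Fb} {u : Fb} (hu : OneAt P u) : u ≠ 0 := by
  rintro rfl
  have := hu.2
  rw [ev_zero] at this
  exact zero_ne_one this

theorem OneAt.mul {P : Place k Fb} {u v : Fb} (hu : OneAt P u) (hv : OneAt P v) :
    OneAt P (u * v) := by
  refine ⟨by rw [P.ord_mul hu.ne_zero hv.ne_zero, hu.1, hv.1, add_zero], ?_⟩
  rw [ev_mul P hu.1.ge hv.1.ge, hu.2, hv.2, one_mul]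

theorem oneAt_one (P : Place k Fb) : OneAt P (1 : Fb) := ⟨P.ord_one, ev_one P⟩

theorem OneAt.pow {P : Place k Fb} {u : Fb} (hu : OneAt P u) (n : ℕ) : OneAt P (u ^ n) := by
  induction n with
  | zero => rw [pow_zero]; exact oneAt_one P
  | succ n ih => rw [pow_succ]; exact ih.mul hu

theorem OneAt.div {P : Place k Fb} {u v : Fb} (hu : OneAt P u) (hv : OneAt P v) :
    OneAt P (u / v) := by
  refine ⟨by rw [ord_div P hu.ne_zero hv.ne_zero, hu.1, hv.1, sub_zero], ?_⟩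
  rw [ev_div P hu.1.ge hv.1, hu.2, hv.2, div_one]

/-- **(A4)** -/
theorem xiDen_oneAt_of_fix (X : Frob k Fb) (P : Place k Fb) (hP : X.Φ (X.Φ P) = P) {u : Fb}
    (hu : 0 ≤ P.ord u) (hΦ : X.Φs u = u ^ X.q) : OneAt P (xiDen (X.q ^ 2) u) := by
  have hu' : u ∈ (X.Φ (X.Φ P)).toValuationSubring := by rw [hP]; exact (mem_iff P).2 hu
  have h1 : X.Φs u ∈ (X.Φ P).toValuationSubring := Φs_mem X (X.Φ P) hu'
  have e1 : ev P (X.Φs (X.Φs u)) = ev P u := by
    rw [ev_Φs X P h1, ev_Φs X (X.Φ P) hu', hP]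
  have e2 : X.Φs (X.Φs u) = u ^ (X.q ^ 2) := by
    rw [hΦ, map_pow, hΦ, ← pow_mul, pow_two]
  rw [e2] at e1
  have hp : 0 ≤ P.ord (u ^ (X.q ^ 2)) := by
    rw [ord_pow]
    positivity
  have hy : 0 ≤ P.ord (yOf (X.q ^ 2) u) := by
    have : yOf (X.q ^ 2) u ∈ P.toValuationSubring :=
      sub_mem ((mem_iff P).2 hp) ((mem_iff P).2 hu)
    exact (mem_iff P).1 this
  have ey : ev P (yOf (X.q ^ 2) u) = 0 := by
    rw [yOf, ev_sub P hp hu, e1, sub_self]
  have hy2 : 0 ≤ P.ord (yOf (X.q ^ 2) u ^ 2) := by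
    rw [ord_pow]
    positivity
  have hs : 0 ≤ P.ord (yOf (X.q ^ 2) u ^ 2 + yOf (X.q ^ 2) u) :=
    (mem_iff P).1 (add_mem ((mem_iff P).2 hy2) ((mem_iff P).2 hy))
  have hD : 0 ≤ P.ord (xiDen (X.q ^ 2) u) :=
    (mem_iff P).1 (add_mem ((mem_iff P).2 hs) (one_mem _))
  have eD : ev P (xiDen (X.q ^ 2) u) = 1 := by
    rw [xiDen, ev_add P hs (by rw [P.ord_one]), ev_add P hy2 hy, ev_pow P hy, ey, ev_one]
    simp
  refine ⟨?_, eD⟩
  by_contra hne
  have hpos : 0 < P.ord (xiDen (X.q ^ 2) u) := lt_of_le_of_ne hD (Ne.symm hne)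
  rw [ev_eq_zero_of_pos P hpos] at eD
  exact zero_ne_one eD

end B

end Fermat.Agent.S41.CC
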