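import Fermat.Agent.DR.Conc.Main
import Fermat.Agent.DR.Hecke.LevelW
import Fermat.Agent.MR.Eis.RedHecke
import Fermat.Agent.MR.Eis.Defs

/-!
# S41 / CC : the two degeneracy maps `a', b' : FN (N r) → FN (N l r)` and the Deligne-Rapoport pairs at `r`

`T = Conc.TT A N r` (level `N r`, components `E k N`), `T' = Conc.TT A (N l) r` (level `N l r`, components `E k (N l)`).

* `aUp N l r`, `bUp N l r : FN (N * r) →ₐ[Kbar] FN (N * l * r)` (`y(t) ↦ y(t)`, `y(t) ↦ y(t^l)`), `coe_aUp`, `coe_bUp`, `integral_aUp`, `integral_bUp`;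
* `W_aUp`, `W_bUp` : they commute with the Atkin-Lehner involutions at `r`;
* `TT_aUp`, `TT_bUp` : `y ∈ O_i ⟹ a' y ∈ O'_i`, `red'_i (a' y) = alphaB (red_i y)`, and the same for `b'`, `betaB`.
-/

set_option autoImplicit false
set_option linter.unusedSectionVars false

noncomputable section

namespace Fermat.Agent.S41.CC

open AlgebraicCurve ModularCurve Fermat.Agent.S24 Fermat.Agent.GAL Fermat.Agent.GAL.Hecke
  Fermat.Agent.GAL.Igusa Fermat.Agent.GAL.RED Fermat.Agent.GAL.Gauss Fermat.Agent.DR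
  Fermat.Agent.DR.Conc Fermat.Agent.DR.Hecke Fermat.Agent.MR.Eis

variable (N l r : ℕ) [NeZero N] [NeZero l] [NeZero r]

/-- `a' : y(t) ↦ y(t)`. -/
def aUp : FN (N * r) →ₐ[Kbar] FN (N * l * r) :=
  ((swapLevel N r l).symm : FN (N * r * l) →ₐ[Kbar] FN (N * l * r)).comp
    (heckeAlphaBar Kbar (N * r) l)

/-- `b' : y(t) ↦ y(t^l)`. -/
def bUp : FN (N * r) →ₐ[Kbar] FN (N * l * r) :=
  ((swapLevel N r l).symm : FN (N * r * l) →ₐ[Kbar] FN (N * l * r)).comp
    (heckeBetaBar Kbar (N * r) l)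

theorem aUp_apply (y : FN (N * r)) :
    aUp N l r y = (swapLevel N r l).symm (heckeAlphaBar Kbar (N * r) l y) := rfl

theorem bUp_apply (y : FN (N * r)) :
    bUp N l r y = (swapLevel N r l).symm (heckeBetaBar Kbar (N * r) l y) := rfl

theorem coe_aUp (y : FN (N * r)) :
    ((aUp N l r y : FN (N * l * r)) : LaurentSeries Kbar) = (y : LaurentSeries Kbar) := by
  rw [aUp_apply, coe_swapLevel_symm, coe_heckeAlphaBar]

theorem coe_bUp (y : FN (N * r)) :
    ((bUp N l r y : FN (N * l * r)) : LaurentSeries Kbar) =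
      qExpand Kbar l (y : LaurentSeries Kbar) := by
  rw [bUp_apply, coe_swapLevel_symm, coe_heckeBetaBar]

theorem integral_aUp : (aUp N l r).toRingHom.IsIntegral :=
  RingHom.IsIntegral.trans _ _ (integral_alpha (N * r) l)
    (RingHom.isIntegral_of_surjective _ (swapLevel N r l).symm.surjective)

theorem integral_bUp : (bUp N l r).toRingHom.IsIntegral :=
  RingHom.IsIntegral.trans _ _ (integral_beta (N * r) l)
    (RingHom.isIntegral_of_surjective _ (swapLevel N r l).symm.surjective)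

variable (hr : r.Prime) (hrN : ¬ r ∣ N) (hrNl : ¬ r ∣ N * l)

theorem W_aUp (y : FN (N * r)) :
    W (N * l) r hr hrNl (aUp N l r y) = aUp N l r (W N r hr hrN y) := by
  have h := wUp_alpha N r l hr hrN hrNl y
  rw [wUp_apply] at h
  have h2 := congrArg (swapLevel N r l).symm h
  rw [AlgEquiv.symm_apply_apply] at h2
  exact h2

theorem W_bUp (y : FN (N * r)) :
    W (N * l) r hr hrNl (bUp N l r y) = bUp N l r (W N r hr hrN y) := by
  have h := wUp_beta N r l hr hrN hrNl y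
  rw [wUp_apply] at h
  have h2 := congrArg (swapLevel N r l).symm h
  rw [AlgEquiv.symm_apply_apply] at h2
  exact h2

variable (A : ValuationSubring Kbar) (hA : A.LiesOverPrime r)

theorem aUp_mem_R1 {y : FN (N * r)} (hy : y ∈ (R1 A N r hr hrN hA).O) :
    aUp N l r y ∈ (R1 A (N * l) r hr hrNl hA).O := by
  rw [mem_R1_O_iff, coe_aUp]
  exact hy

theorem R1_red_aUp {y : FN (N * r)} (hy : y ∈ (R1 A N r hr hrN hA).O) :
    (R1 A (N * l) r hr hrNl hA).red (aUp N l r y) =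
      alphaB (IsLocalRing.ResidueField ↥A) N l ((R1 A N r hr hrN hA).red y) := by
  apply Subtype.ext
  have hy0 : (y : LaurentSeries Kbar) ∈ gRing A := hy
  have hy' : ((aUp N l r y : FN (N * l * r)) : LaurentSeries Kbar) ∈ gRing A := by
    rw [coe_aUp]; exact hy
  rw [coe_R1_red A (N * l) r hr hrNl hA _ hy', coe_alphaB, coe_R1_red A N r hr hrN hA y hy0]
  exact congrArg (gRes A) (mk_gRing_congr A _ _ _ _ (coe_aUp N l r y))

theorem bUp_mem_R1 {y : FN (N * r)} (hy : y ∈ (R1 A N r hr hrN hA).O) :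
    bUp N l r y ∈ (R1 A (N * l) r hr hrNl hA).O := by
  have hy0 : (y : LaurentSeries Kbar) ∈ gRing A := hy
  rw [mem_R1_O_iff, coe_bUp]
  exact qExpand_mem_gRing A l hy0

theorem R1_red_bUp {y : FN (N * r)} (hy : y ∈ (R1 A N r hr hrN hA).O) :
    (R1 A (N * l) r hr hrNl hA).red (bUp N l r y) =
      betaB (IsLocalRing.ResidueField ↥A) N l ((R1 A N r hr hrN hA).red y) := by
  apply Subtype.ext
  have hy0 : (y : LaurentSeries Kbar) ∈ gRing A := hy
  have hy' : ((bUp N l r y : FN (N * l * r)) : LaurentSeries Kbar) ∈ gRing A :=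
    bUp_mem_R1 N l r hr hrN hrNl A hA hy
  rw [coe_R1_red A (N * l) r hr hrNl hA _ hy', coe_betaB, coe_R1_red A N r hr hrN hA y hy0,
    ← gRes_qExpand A l hy0]
  exact congrArg (gRes A) (mk_gRing_congr A _ _ _ _ (coe_bUp N l r y))

theorem aUp_mem_R2 {y : FN (N * r)} (hy : y ∈ (R2 A N r hr hrN hA).O) :
    aUp N l r y ∈ (R2 A (N * l) r hr hrNl hA).O := by
  rw [mem_R2_O_iff, W_aUp N l r hr hrN hrNl]
  exact aUp_mem_R1 N l r hr hrN hrNl A hA ((mem_R2_O_iff A N r hr hrN hA y).1 hy)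

theorem R2_red_aUp {y : FN (N * r)} (hy : y ∈ (R2 A N r hr hrN hA).O) :
    (R2 A (N * l) r hr hrNl hA).red (aUp N l r y) =
      alphaB (IsLocalRing.ResidueField ↥A) N l ((R2 A N r hr hrN hA).red y) := by
  rw [R2_red, W_aUp N l r hr hrN hrNl,
    R1_red_aUp N l r hr hrN hrNl A hA ((mem_R2_O_iff A N r hr hrN hA y).1 hy), R2_red]

theorem bUp_mem_R2 {y : FN (N * r)} (hy : y ∈ (R2 A N r hr hrN hA).O) :
    bUp N l r y ∈ (R2 A (N * l) r hr hrNl hA).O := by
  rw [mem_R2_O_iff, W_bUp N l r hr hrN hrNl]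
  exact bUp_mem_R1 N l r hr hrN hrNl A hA ((mem_R2_O_iff A N r hr hrN hA y).1 hy)

theorem R2_red_bUp {y : FN (N * r)} (hy : y ∈ (R2 A N r hr hrN hA).O) :
    (R2 A (N * l) r hr hrNl hA).red (bUp N l r y) =
      betaB (IsLocalRing.ResidueField ↥A) N l ((R2 A N r hr hrN hA).red y) := by
  rw [R2_red, W_bUp N l r hr hrN hrNl,
    R1_red_bUp N l r hr hrN hrNl A hA ((mem_R2_O_iff A N r hr hrN hA y).1 hy), R2_red]

/-- **compatibility of `a'` with the two reductions.** -/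
theorem TT_aUp (i : Fin 2) {y : FN (N * r)} (hy : y ∈ ((TT A N r hr hrN hA).R i).O) :
    aUp N l r y ∈ ((TT A (N * l) r hr hrNl hA).R i).O ∧
      ((TT A (N * l) r hr hrNl hA).R i).red (aUp N l r y) =
        alphaB (IsLocalRing.ResidueField ↥A) N l (((TT A N r hr hrN hA).R i).red y) := by
  fin_cases i
  · exact ⟨aUp_mem_R1 N l r hr hrN hrNl A hA hy, R1_red_aUp N l r hr hrN hrNl A hA hy⟩
  · exact ⟨aUp_mem_R2 N l r hr hrN hrNl A hA hy, R2_red_aUp N l r hr hrN hrNl A hA hy⟩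

/-- **compatibility of `b'` with the two reductions.** -/
theorem TT_bUp (i : Fin 2) {y : FN (N * r)} (hy : y ∈ ((TT A N r hr hrN hA).R i).O) :
    bUp N l r y ∈ ((TT A (N * l) r hr hrNl hA).R i).O ∧
      ((TT A (N * l) r hr hrNl hA).R i).red (bUp N l r y) =
        betaB (IsLocalRing.ResidueField ↥A) N l (((TT A N r hr hrN hA).R i).red y) := by
  fin_cases i
  · exact ⟨bUp_mem_R1 N l r hr hrN hrNl A hA hy, R1_red_bUp N l r hr hrN hrNl A hA hy⟩
  · exact ⟨bUp_mem_R2 N l r hr hrN hrNl A hA hy, R2_red_bUp N l r hr hrN hrNl A hA hy⟩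

theorem aUp_jN : aUp N l r (jN N r) = jN (N * l) r :=
  Subtype.ext (by rw [coe_aUp, coe_jN, coe_jN])

theorem aUp_jqN : aUp N l r (jqN N r) = jqN (N * l) r :=
  Subtype.ext (by rw [coe_aUp, coe_jqN, coe_jqN])

/-- `a'` respects the coordinates. -/
theorem aUp_xC : aUp N l r (xC N r) = xC (N * l) r := by
  have h1 := map_xiOf (aUp N l r : FN (N * r) →+* FN (N * l * r)) (r ^ 2) (jN N r)
  have h2 := map_xiOf (aUp N l r : FN (N * r) →+* FN (N * l * r)) (r ^ 2) (jqN N r)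
  simp only [AlgHom.coe_toRingHom] at h1 h2
  rw [xC, map_mul, h1, h2, aUp_jN, aUp_jqN, xC]

end Fermat.Agent.S41.CC
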