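import Fermat.Agent.S41.CC.Abs
import Fermat.Agent.S41.CC.Compat
import Fermat.Agent.S41.Toric.Mor
import Fermat.Agent.S41.Nodes.Bar

/-!
# S41 / CC : the two degeneracy maps are morphisms of pairs of reductions (`Toric.PairMor`)

`T = Conc.TT A N r`, `x = xC N r`, `T' = Conc.TT A (N l) r`, `x' = xC (N l) r`.

* `pairMor_aUp` : `a'` is a `PairMor` (over `alphaB`), with `G = 1` (`aUp_xC`);
* `pairMor_bUp` : `b'` is a `PairMor` (over `betaB`), with `G = b'(Den(j) Den(j_r)) / Den(j') ^ b`.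

`S'` is any set of places which are fixed by the square of the Frobenius and non cuspidal.
-/

set_option autoImplicit false
set_option linter.unusedSectionVars false

noncomputable section

namespace Fermat.Agent.S41.CC

open AlgebraicCurve ModularCurve Fermat.Agent.S24 Fermat.Agent.GAL Fermat.Agent.GAL.Hecke
  Fermat.Agent.GAL.Igusa Fermat.Agent.GAL.RED Fermat.Agent.GAL.Gauss Fermat.Agent.DR
  Fermat.Agent.DR.Conc Fermat.Agent.DR.Hecke Fermat.Agent.MR.Eis Fermat.Agent.DR.Gal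

/-! ### characteristic zero -/

section char0

/-- a function with the expansion `j(t^d)` is integral over `Kbar[j]`. -/
theorem isIntegral_of_coe_eq (M d : ℕ) [NeZero M] [NeZero d] (y : FN M)
    (hy : (y : LaurentSeries Kbar) = qExpand Kbar d (jqModC Kbar)) :
    IsIntegral (Algebra.adjoin Kbar {jF M}) y := by
  rw [← Fermat.Agent.S36R.Unit.IntCrit_isIntegral_map_iff (modularFunctionFieldBar M).val]
  have h := S28.isIntegral_jd Kbar d (S28.statementB S28.statementA)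
    (Nat.cast_ne_zero.2 (NeZero.ne d)) dvd_rfl
  rw [S28.jd_eq] at h
  have e1 : (modularFunctionFieldBar M).val (jF M) = jqModC Kbar := Igusa.LevelDeg_coeffEmb_jq
  have e2 : (modularFunctionFieldBar M).val y = qExpand Kbar d (jqModC Kbar) := hy
  rw [e1, e2]
  exact h

variable (N l r : ℕ) [NeZero N] [NeZero l] [NeZero r]

variable [Lib.RR.IsFF Kbar (FN (N * r))] [Lib.RR.IsFF Kbar (FN (N * l * r))]

theorem bUp_jN_mem_regOff : bUp N l r (jN N r) ∈ regOff Kbar (jN (N * l) r) := by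
  rw [mem_regOff]
  intro P hP
  refine Igusa.mem_place_of_isIntegral P hP (isIntegral_of_coe_eq (N * l * r) l _ ?_)
  rw [coe_bUp, coe_jN]

theorem bUp_jqN_mem_regOff (hr : r.Prime) : bUp N l r (jqN N r) ∈ regOff Kbar (jN (N * l) r) := by
  have h1 := map_mem_regOff (bUp N l r) (integral_bUp N l r) (jqN_mem_regOff N r hr)
  have h2 := bUp_jN_mem_regOff N l r
  rw [XiAbs_mem_regOff_iff] at h1 h2 ⊢
  exact fun P hP => h1 P (h2 P hP)

/-- `Den(j) Den(j_r)` at level `N r`. -/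
def dLow : FN (N * r) := xiDen (r ^ 2) (jN N r) * xiDen (r ^ 2) (jqN N r)

/-- `Num(j) Num(j_r)` at level `N r`. -/
def nLow : FN (N * r) := xiNum (r ^ 2) (jN N r) * xiNum (r ^ 2) (jqN N r)

/-- `Den(j)` at level `N l r`. -/
def dUp : FN (N * l * r) := xiDen (r ^ 2) (jN (N * l) r)

theorem transcendental_jqN : Transcendental Kbar (jqN N r) := by
  rw [Conc.jqN]
  exact fun h => transcendental_jF N
    ((isAlgebraic_algHom_iff (heckeBetaBar Kbar N r) (heckeBetaBar Kbar N r).injective).1 h)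

theorem dLow_ne_zero (hr : r.Prime) : dLow N r ≠ 0 :=
  mul_ne_zero (xiDen_ne_zero (two_le_sq r hr) (Coord_transcendental_jN N r))
    (xiDen_ne_zero (two_le_sq r hr) (transcendental_jqN N r))

theorem dUp_ne_zero (hr : r.Prime) : dUp N l r ≠ 0 :=
  xiDen_ne_zero (two_le_sq r hr) (Coord_transcendental_jN (N * l) r)

theorem xC_mul_dLow (hr : r.Prime) : xC N r * dLow N r = nLow N r := by
  have h1 : xiDen (r ^ 2) (jN N r) ≠ 0 :=
    xiDen_ne_zero (two_le_sq r hr) (Coord_transcendental_jN N r)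
  have h2 : xiDen (r ^ 2) (jqN N r) ≠ 0 :=
    xiDen_ne_zero (two_le_sq r hr) (transcendental_jqN N r)
  rw [xC, dLow, nLow, xiOf, xiOf]
  field_simp

theorem bUp_dLow : bUp N l r (dLow N r) =
    xiDen (r ^ 2) (bUp N l r (jN N r)) * xiDen (r ^ 2) (bUp N l r (jqN N r)) := by
  have h1 := map_xiDen (bUp N l r : FN (N * r) →+* FN (N * l * r)) (r ^ 2) (jN N r)
  have h2 := map_xiDen (bUp N l r : FN (N * r) →+* FN (N * l * r)) (r ^ 2) (jqN N r)
  simp only [AlgHom.coe_toRingHom] at h1 h2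
  rw [dLow, map_mul, h1, h2]

theorem bUp_nLow : bUp N l r (nLow N r) =
    xiNum (r ^ 2) (bUp N l r (jN N r)) * xiNum (r ^ 2) (bUp N l r (jqN N r)) := by
  have h1 := map_xiNum (bUp N l r : FN (N * r) →+* FN (N * l * r)) (r ^ 2) (jN N r)
  have h2 := map_xiNum (bUp N l r : FN (N * r) →+* FN (N * l * r)) (r ^ 2) (jqN N r)
  simp only [AlgHom.coe_toRingHom] at h1 h2
  rw [nLow, map_mul, h1, h2]

/-- (S2) `Den(j')` regular at `P` ⟹ `j'` regular at `P`. -/
theorem ord_jN_nonneg_of_dUp (hr : r.Prime) (P : Place Kbar (FN (N * l * r)))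
    (h : 0 ≤ P.ord (dUp N l r)) : 0 ≤ P.ord (jN (N * l) r) := by
  by_contra hneg
  push Not at hneg
  obtain ⟨-, -, ⟨p, hp, hd, he⟩⟩ := exists_monic_yOf (K := Kbar) (two_le_sq r hr) (jN (N * l) r)
  have h1 := XiAbs_ord_aeval_monic P hneg p hp
  rw [he, hd] at h1
  rw [dUp, h1] at h
  have h2 : (0 : ℤ) < ((2 * r ^ 2 : ℕ) : ℤ) := by
    have := two_le_sq r hr
    exact_mod_cast (by omega : 0 < 2 * r ^ 2)
  have := mul_neg_of_pos_of_neg h2 hneg
  omega

theorem ord_mul_nonneg' {K F : Type*} [Field K] [Field F] [Algebra K F] (P : Place K F) {u v : F}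
    (hu : 0 ≤ P.ord u) (hv : 0 ≤ P.ord v) : 0 ≤ P.ord (u * v) := by
  rcases eq_or_ne u 0 with rfl | hu0
  · rw [zero_mul, P.ord_zero]
  rcases eq_or_ne v 0 with rfl | hv0
  · rw [mul_zero, P.ord_zero]
  rw [P.ord_mul hu0 hv0]
  omega

theorem ord_bUp_dLow_nonneg (hr : r.Prime) (P : Place Kbar (FN (N * l * r)))
    (h : 0 ≤ P.ord (dUp N l r)) : 0 ≤ P.ord (bUp N l r (dLow N r)) := by
  have hj := ord_jN_nonneg_of_dUp N l r hr P h
  have h1 := (XiAbs_mem_regOff_iff.1 (bUp_jN_mem_regOff N l r)) P hj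
  have h2 := (XiAbs_mem_regOff_iff.1 (bUp_jqN_mem_regOff N l r hr)) P hj
  rw [bUp_dLow]
  exact ord_mul_nonneg' P (ord_xiDen_nonneg P h1) (ord_xiDen_nonneg P h2)

theorem ord_bUp_nLow_nonneg (hr : r.Prime) (P : Place Kbar (FN (N * l * r)))
    (h : 0 ≤ P.ord (dUp N l r)) : 0 ≤ P.ord (bUp N l r (nLow N r)) := by
  have hj := ord_jN_nonneg_of_dUp N l r hr P h
  have h1 := (XiAbs_mem_regOff_iff.1 (bUp_jN_mem_regOff N l r)) P hj
  have h2 := (XiAbs_mem_regOff_iff.1 (bUp_jqN_mem_regOff N l r hr)) P hj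
  rw [bUp_nLow]
  exact ord_mul_nonneg' P (ord_xiNum_nonneg P h1) (ord_xiNum_nonneg P h2)

end char0

/-! ### the reductions -/

section abs

/-- reduction of `Den(t)`. -/
theorem RedData_xiDen {K F k Fb : Type*} [Field K] [Field F] [Algebra K F] [Field k] [Field Fb]
    [Algebra k Fb] (R : RedData K F k Fb) (n : ℕ) {t : F} (ht : t ∈ R.O) :
    xiDen n t ∈ R.O ∧ R.red (xiDen n t) = xiDen n (R.red t) := by
  have hy : yOf n t ∈ R.O := sub_mem (pow_mem ht n) ht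
  have hyr : R.red (yOf n t) = yOf n (R.red t) := by
    rw [yOf, R.red_sub (pow_mem ht n) ht, R.red_pow, yOf]
  have h1 : (1 : F) ∈ R.O := one_mem _
  refine ⟨add_mem (add_mem (pow_mem hy 2) hy) h1, ?_⟩
  rw [xiDen, R.red_add (add_mem (pow_mem hy 2) hy) h1, R.red_add (pow_mem hy 2) hy, R.red_pow,
    hyr, R.red_one, xiDen]

/-- reduction of `Num(t)`. -/
theorem RedData_xiNum {K F k Fb : Type*} [Field K] [Field F] [Algebra K F] [Field k] [Field Fb]
    [Algebra k Fb] (R : RedData K F k Fb) (n : ℕ) {t : F} (ht : t ∈ R.O) :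
    xiNum n t ∈ R.O ∧ R.red (xiNum n t) = xiNum n (R.red t) := by
  have hy : yOf n t ∈ R.O := sub_mem (pow_mem ht n) ht
  have hyr : R.red (yOf n t) = yOf n (R.red t) := by
    rw [yOf, R.red_sub (pow_mem ht n) ht, R.red_pow, yOf]
  have h1 : (1 : F) ∈ R.O := one_mem _
  refine ⟨add_mem (pow_mem hy 2) h1, ?_⟩
  rw [xiNum, R.red_add (pow_mem hy 2) h1, R.red_pow, hyr, R.red_one, xiNum]

variable {k Fb : Type*} [Field k] [Field Fb] [Algebra k Fb] [Lib.RR.IsFF k Fb] [IsAlgClosed k]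

theorem xiDen_pow_oneAt_of_fix (X : Nodal.Frob k Fb) (P : Place k Fb) (hP : X.Φ (X.Φ P) = P)
    {u : Fb} (hu : 0 ≤ P.ord u) (hΦ : X.Φs u = u ^ X.q) (e : ℕ) :
    OneAt P (xiDen (X.q ^ 2) (u ^ e)) := by
  refine xiDen_oneAt_of_fix X P hP ?_ ?_
  · rw [ord_pow]
    positivity
  · rw [map_pow, hΦ, ← pow_mul, ← pow_mul, mul_comm]

end abs

section red

variable (A : ValuationSubring Kbar) (M q : ℕ) [NeZero M] [NeZero q] (hq : q.Prime)
  (hqM : ¬ q ∣ M) (hA : A.LiesOverPrime q)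

theorem TT_red_jN_pow (i : Fin 2) : ∃ e : ℕ, 0 < e ∧ ((TT A M q hq hqM hA).R i).red (jN M q) =
    Igusa.jb (IsLocalRing.ResidueField ↥A) M ^ e := by
  fin_cases i
  · exact ⟨1, one_pos, by rw [pow_one]; exact R1_red_jN A M q hq hqM hA⟩
  · exact ⟨q, hq.pos, R2_red_jN A M q hq hqM hA⟩

theorem TT_red_jqN_pow (i : Fin 2) : ∃ e : ℕ, 0 < e ∧
    ((TT A M q hq hqM hA).R i).red (Conc.jqN M q) =
      Igusa.jb (IsLocalRing.ResidueField ↥A) M ^ e := by
  fin_cases i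
  · exact ⟨q, hq.pos, R1_red_jqN A M q hq hqM hA⟩
  · exact ⟨1, one_pos, by rw [pow_one]; exact R2_red_jqN A M q hq hqM hA⟩

theorem jN_mem_TT (i : Fin 2) : jN M q ∈ ((TT A M q hq hqM hA).R i).O := by
  obtain ⟨e, -, he⟩ := TT_red_jN_pow A M q hq hqM hA i
  apply RedData.mem_of_red_ne_zero
  rw [he]
  exact pow_ne_zero e (jb_ne_zero' _ M)

theorem jqN_mem_TT (i : Fin 2) : Conc.jqN M q ∈ ((TT A M q hq hqM hA).R i).O := by
  obtain ⟨e, -, he⟩ := TT_red_jqN_pow A M q hq hqM hA i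
  apply RedData.mem_of_red_ne_zero
  rw [he]
  exact pow_ne_zero e (jb_ne_zero' _ M)

end red

section main

variable (N l r : ℕ) [NeZero N] [NeZero l] [NeZero r]
  (hr : r.Prime) (hrN : ¬ r ∣ N) (hrNl : ¬ r ∣ N * l)
  (A : ValuationSubring Kbar) (hA : A.LiesOverPrime r)
  [Fact r.Prime] [CharP (IsLocalRing.ResidueField ↥A) r]
  [PerfectRing (IsLocalRing.ResidueField ↥A) r] [IsAlgClosed (IsLocalRing.ResidueField ↥A)]
  [Lib.RR.IsFF (IsLocalRing.ResidueField ↥A) (Igusa.E (IsLocalRing.ResidueField ↥A) N)]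
  [Lib.RR.IsFF (IsLocalRing.ResidueField ↥A) (Igusa.E (IsLocalRing.ResidueField ↥A) (N * l))]
  [Lib.RR.IsFF Kbar (FN (N * r))] [Lib.RR.IsFF Kbar (FN (N * l * r))]
  [Lib.RR.IsFF Kbar (FN (N * l))]

include A hr hrNl hA in
/-- (S1) -/
theorem dUp_inv_mem_regOff : (dUp N l r)⁻¹ ∈ regOff Kbar (xC (N * l) r) := by
  rw [xC_eq]
  apply regOff_le_of_poleDiv_mul (poleDiv_xC A (N * l) r hr hrNl hA)
  rw [alpha_xiM, XiAbs_mem_regOff_iff]
  intro P hP
  have h := DFunLike.congr_fun (poleDiv_xiOf (K := Kbar) (two_le_sq r hr)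
    (Coord_transcendental_jN (N * l) r)).1 P
  rw [RED.poleDiv_apply, RED.poleDiv_apply] at h
  rw [dUp]
  omega

include A hr hrNl hA in
/-- (S5) -/
theorem exists_div_mem_regOff : ∃ b : ℕ,
    bUp N l r (dLow N r) / dUp N l r ^ b ∈ regOff Kbar (xC (N * l) r) ∧
      bUp N l r (nLow N r) / dUp N l r ^ b ∈ regOff Kbar (xC (N * l) r) := by
  obtain ⟨b₁, h₁⟩ := exists_forall_div_pow_mem (dUp_ne_zero N l r hr)
    (dUp_inv_mem_regOff N l r hr hrNl A hA) (ord_bUp_dLow_nonneg N l r hr)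
  obtain ⟨b₂, h₂⟩ := exists_forall_div_pow_mem (dUp_ne_zero N l r hr)
    (dUp_inv_mem_regOff N l r hr hrNl A hA) (ord_bUp_nLow_nonneg N l r hr)
  exact ⟨max b₁ b₂, h₁ _ (le_max_left _ _), h₂ _ (le_max_right _ _)⟩

theorem dLow_mem_TT (i : Fin 2) : dLow N r ∈ ((TT A N r hr hrN hA).R i).O :=
  mul_mem (RedData_xiDen _ _ (jN_mem_TT A N r hr hrN hA i)).1
    (RedData_xiDen _ _ (jqN_mem_TT A N r hr hrN hA i)).1

theorem nLow_mem_TT (i : Fin 2) : nLow N r ∈ ((TT A N r hr hrN hA).R i).O :=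
  mul_mem (RedData_xiNum _ _ (jN_mem_TT A N r hr hrN hA i)).1
    (RedData_xiNum _ _ (jqN_mem_TT A N r hr hrN hA i)).1

theorem TT_red_dUp (i : Fin 2) : ∃ e : ℕ, 0 < e ∧
    ((TT A (N * l) r hr hrNl hA).R i).red (dUp N l r) =
      xiDen (r ^ 2) (Igusa.jb (IsLocalRing.ResidueField ↥A) (N * l) ^ e) := by
  obtain ⟨e, he0, he⟩ := TT_red_jN_pow A (N * l) r hr hrNl hA i
  exact ⟨e, he0, by rw [dUp, (RedData_xiDen _ _ (jN_mem_TT A (N * l) r hr hrNl hA i)).2, he]⟩

theorem TT_red_dUp_ne_zero (i : Fin 2) :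
    ((TT A (N * l) r hr hrNl hA).R i).red (dUp N l r) ≠ 0 := by
  obtain ⟨e, he0, he⟩ := TT_red_dUp N l r hr hrNl A hA i
  rw [he]
  exact xiDen_ne_zero (K := IsLocalRing.ResidueField ↥A) (two_le_sq r hr)
    ((Igusa.transcendental_jb _ (N * l)).pow he0)

theorem TT_red_dLow (i : Fin 2) : ∃ e e' : ℕ,
    ((TT A N r hr hrN hA).R i).red (dLow N r) =
      xiDen (r ^ 2) (Igusa.jb (IsLocalRing.ResidueField ↥A) N ^ e) *
        xiDen (r ^ 2) (Igusa.jb (IsLocalRing.ResidueField ↥A) N ^ e') := by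
  obtain ⟨e, -, he⟩ := TT_red_jN_pow A N r hr hrN hA i
  obtain ⟨e', -, he'⟩ := TT_red_jqN_pow A N r hr hrN hA i
  refine ⟨e, e', ?_⟩
  rw [dLow, RedData.red_mul _ (RedData_xiDen _ _ (jN_mem_TT A N r hr hrN hA i)).1
    (RedData_xiDen _ _ (jqN_mem_TT A N r hr hrN hA i)).1,
    (RedData_xiDen _ _ (jN_mem_TT A N r hr hrN hA i)).2,
    (RedData_xiDen _ _ (jqN_mem_TT A N r hr hrN hA i)).2, he, he']

theorem FrE_betaB (x : Igusa.E (IsLocalRing.ResidueField ↥A) N) :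
    FrE (IsLocalRing.ResidueField ↥A) (N * l) r (betaB (IsLocalRing.ResidueField ↥A) N l x) =
      betaB (IsLocalRing.ResidueField ↥A) N l (FrE (IsLocalRing.ResidueField ↥A) N r x) := by
  apply Subtype.ext
  rw [coe_FrE, coe_betaB, coe_betaB, coe_FrE, coeffMap_qExpand]

theorem Phi_betaB_jb :
    Phi (IsLocalRing.ResidueField ↥A) (N * l) r
        (betaB (IsLocalRing.ResidueField ↥A) N l (Igusa.jb (IsLocalRing.ResidueField ↥A) N)) =
      betaB (IsLocalRing.ResidueField ↥A) N l (Igusa.jb (IsLocalRing.ResidueField ↥A) N) ^ r := by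
  rw [← Phi_FrE, FrE_betaB, FrE_jb]

include hr hrNl hA in
theorem ord_betaB_jb_nonneg
    (P : Place (IsLocalRing.ResidueField ↥A) (Igusa.E (IsLocalRing.ResidueField ↥A) (N * l)))
    (hP : 0 ≤ P.ord (Igusa.jb (IsLocalRing.ResidueField ↥A) (N * l))) :
    0 ≤ P.ord (betaB (IsLocalRing.ResidueField ↥A) N l
      (Igusa.jb (IsLocalRing.ResidueField ↥A) N)) := by
  rw [← XiAbs_mem_iff_ord_nonneg] at hP ⊢
  exact Igusa.mem_place_of_isIntegral P hP
    (isIntegral_betaBar_jb _ N l (natCast_M_ne_zero A (N * l) r hr hrNl hA))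

/-- the multiplier. -/
def GG (b : ℕ) : FN (N * l * r) := bUp N l r (dLow N r) / dUp N l r ^ b

include hrN in
theorem GG_mem_TT (b : ℕ) (i : Fin 2) : GG N l r b ∈ ((TT A (N * l) r hr hrNl hA).R i).O := by
  rw [GG, div_eq_mul_inv]
  refine mul_mem (TT_bUp N l r hr hrN hrNl A hA i (dLow_mem_TT N r hr hrN A hA i)).1
    (RedData.inv_mem_of_red_ne_zero _ ?_)
  rw [RedData.red_pow]
  exact pow_ne_zero b (TT_red_dUp_ne_zero N l r hr hrNl A hA i)

include hr in
theorem bUp_xC_mul_GG (b : ℕ) :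
    bUp N l r (xC N r) * GG N l r b = bUp N l r (nLow N r) / dUp N l r ^ b := by
  rw [GG, ← mul_div_assoc, ← map_mul, xC_mul_dLow N r hr]

include hrN in
theorem bUp_xC_mul_GG_mem_TT (b : ℕ) (i : Fin 2) :
    bUp N l r (xC N r) * GG N l r b ∈ ((TT A (N * l) r hr hrNl hA).R i).O := by
  rw [bUp_xC_mul_GG N l r hr, div_eq_mul_inv]
  refine mul_mem (TT_bUp N l r hr hrN hrNl A hA i (nLow_mem_TT N r hr hrN A hA i)).1
    (RedData.inv_mem_of_red_ne_zero _ ?_)
  rw [RedData.red_pow]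
  exact pow_ne_zero b (TT_red_dUp_ne_zero N l r hr hrNl A hA i)

include hrN in
/-- **the multiplier has the value `1` at the non cuspidal fixed points of `Φ²`**, on both components. -/
theorem GG_oneAt (b : ℕ) (i : Fin 2)
    (P : Place (IsLocalRing.ResidueField ↥A) (Igusa.E (IsLocalRing.ResidueField ↥A) (N * l)))
    (hfix : Fr (IsLocalRing.ResidueField ↥A) (N * l) r •
      Fr (IsLocalRing.ResidueField ↥A) (N * l) r • P = P)
    (hP : 0 ≤ P.ord (Igusa.jb (IsLocalRing.ResidueField ↥A) (N * l))) :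
    OneAt P (((TT A (N * l) r hr hrNl hA).R i).red (GG N l r b)) := by
  obtain ⟨e, e', he⟩ := TT_red_dLow N r hr hrN A hA i
  obtain ⟨e'', -, he''⟩ := TT_red_dUp N l r hr hrNl A hA i
  have h1 := (TT_bUp N l r hr hrN hrNl A hA i (dLow_mem_TT N r hr hrN A hA i))
  have h0 : ((TT A (N * l) r hr hrNl hA).R i).red (dUp N l r ^ b) ≠ 0 := by
    rw [RedData.red_pow]
    exact pow_ne_zero b (TT_red_dUp_ne_zero N l r hr hrNl A hA i)
  have m1 := map_xiDen (betaB (IsLocalRing.ResidueField ↥A) N l :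
    Igusa.E (IsLocalRing.ResidueField ↥A) N →+* Igusa.E (IsLocalRing.ResidueField ↥A) (N * l))
    (r ^ 2) (Igusa.jb (IsLocalRing.ResidueField ↥A) N ^ e)
  have m2 := map_xiDen (betaB (IsLocalRing.ResidueField ↥A) N l :
    Igusa.E (IsLocalRing.ResidueField ↥A) N →+* Igusa.E (IsLocalRing.ResidueField ↥A) (N * l))
    (r ^ 2) (Igusa.jb (IsLocalRing.ResidueField ↥A) N ^ e')
  simp only [AlgHom.coe_toRingHom, map_pow] at m1 m2
  rw [GG, RedData.red_div _ h1.1 h0, h1.2, he, map_mul, m1, m2, RedData.red_pow, he'']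
  have hb := ord_betaB_jb_nonneg N l r hr hrNl A hA P hP
  exact ((xiDen_pow_oneAt_of_fix (frobX (IsLocalRing.ResidueField ↥A) (N * l) r) P hfix hb
    (Phi_betaB_jb N l r A) e).mul
    (xiDen_pow_oneAt_of_fix (frobX (IsLocalRing.ResidueField ↥A) (N * l) r) P hfix hb
    (Phi_betaB_jb N l r A) e')).div
    ((xiDen_pow_oneAt_of_fix (frobX (IsLocalRing.ResidueField ↥A) (N * l) r) P hfix hP
    (Phi_jb _ (N * l) r) e'').pow b)

theorem xC_isReg : S33.Cover.IsReg (TT A (N * l) r hr hrNl hA) (xC (N * l) r) (xC (N * l) r) := by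
  rw [S33.Cover.isReg_iff]
  refine ⟨fun i => RedData.mem_of_red_ne_zero _ ?_, fun P hP => hP⟩
  rw [TT_red_xC]
  exact sig_ne_zero _ (N * l) r

/-- **`a'` is a morphism of pairs.** -/
theorem pairMor_aUp (S' : Set (Place (IsLocalRing.ResidueField ↥A)
    (Igusa.E (IsLocalRing.ResidueField ↥A) (N * l)))) :
    Toric.PairMor (TT A N r hr hrN hA) (xC N r) (frobX (IsLocalRing.ResidueField ↥A) N r)
      (TT A (N * l) r hr hrNl hA) (xC (N * l) r) (frobX (IsLocalRing.ResidueField ↥A) (N * l) r) S'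
      (aUp N l r) (alphaB (IsLocalRing.ResidueField ↥A) N l) where
  int := integral_aUp N l r
  intb := Nodes.integral_alphaB _ N l (natCast_M_ne_zero A (N * l) r hr hrNl hA)
  mem := fun i y hy => (TT_aUp N l r hr hrN hrNl A hA i hy).1
  red := fun i y hy => (TT_aUp N l r hr hrN hrNl A hA i hy).2
  frob := fun P' => Nodes.Bar.Fr_alpha _ N l r _ P'
  coord := by
    refine ⟨1, S33.Cover.IsReg.one, ?_, fun P' _ => ?_⟩
    · rw [mul_one, aUp_xC]
      exact xC_isReg N l r hr hrNl A hA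
    · rw [RedData.red_one, Nodal.abs_ev_eq, (oneAt_one P').2]
      exact one_ne_zero

/-- **`b'` is a morphism of pairs.** -/
theorem pairMor_bUp (S' : Set (Place (IsLocalRing.ResidueField ↥A)
    (Igusa.E (IsLocalRing.ResidueField ↥A) (N * l))))
    (hS' : ∀ P' ∈ S', Fr (IsLocalRing.ResidueField ↥A) (N * l) r •
      Fr (IsLocalRing.ResidueField ↥A) (N * l) r • P' = P' ∧
      0 ≤ P'.ord (Igusa.jb (IsLocalRing.ResidueField ↥A) (N * l))) :
    Toric.PairMor (TT A N r hr hrN hA) (xC N r) (frobX (IsLocalRing.ResidueField ↥A) N r)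
      (TT A (N * l) r hr hrNl hA) (xC (N * l) r) (frobX (IsLocalRing.ResidueField ↥A) (N * l) r) S'
      (bUp N l r) (betaB (IsLocalRing.ResidueField ↥A) N l) where
  int := integral_bUp N l r
  intb := Nodes.integral_betaB _ N l (natCast_M_ne_zero A (N * l) r hr hrNl hA)
  mem := fun i y hy => (TT_bUp N l r hr hrN hrNl A hA i hy).1
  red := fun i y hy => (TT_bUp N l r hr hrN hrNl A hA i hy).2
  frob := fun P' => Nodes.Bar.Fr_beta _ N l r _ P'
  coord := by
    obtain ⟨b, hb₁, hb₂⟩ := exists_div_mem_regOff N l r hr hrNl A hA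
    refine ⟨GG N l r b, ?_, ?_, fun P' hP' => ?_⟩
    · rw [S33.Cover.isReg_iff]
      exact ⟨fun i => GG_mem_TT N l r hr hrN hrNl A hA b i, XiAbs_mem_regOff_iff.1 hb₁⟩
    · rw [S33.Cover.isReg_iff]
      refine ⟨fun i => bUp_xC_mul_GG_mem_TT N l r hr hrN hrNl A hA b i, ?_⟩
      rw [bUp_xC_mul_GG N l r hr]
      exact XiAbs_mem_regOff_iff.1 hb₂
    · rw [Nodal.abs_ev_eq, (GG_oneAt N l r hr hrN hrNl A hA b 1 P' (hS' P' hP').1 (hS' P' hP').2).2]
      exact one_ne_zero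

end main

end Fermat.Agent.S41.CC
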